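import Mathlib
import Fermat.Prelude.Def_ClassGroup_GaloisAction
import Fermat.Prelude.Def_ExtCitation_AdmissibleExtension_v2

/-!
# S14 — frozen interface statements (route: Kummer side + Thaine + density + units)

All blocks prove one of the `Prop`s below, e.g. `theorem thaine : Spec.ThaineStatement`.
See `coord/S14-route.md` on branch `origin/helper974`.
-/

set_option autoImplicit false

open NumberField
open scoped nonZeroDivisors

namespace Fermat.Agent.S14.Spec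

section Defs

variable (p : ℕ) [hp : Fact p.Prime]
variable (K : Type) [Field K] [NumberField K] [IsCyclotomicExtension {p} ℚ K]

/-- `p ≠ 0` as an instance argument for Mathlib's cyclotomic API. -/
theorem neZero : NeZero p := ⟨hp.out.ne_zero⟩

/-- Mathlib's chosen primitive `p`-th root of unity, as an algebraic integer. -/
noncomputable def zetaInt : 𝓞 K :=
  haveI := neZero p
  (IsCyclotomicExtension.zeta_spec p ℚ K).toInteger

/-- `λ = ζ - 1`. -/
noncomputable def lam : 𝓞 K := zetaInt p K - 1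

/-- The exponent `a ∈ {1, …, p-1}` with `σ ζ = ζ ^ a`. -/
noncomputable def galExp (σ : K ≃ₐ[ℚ] K) : ℕ :=
  haveI := neZero p
  ((JacobiSumStickelberger.cycloGalEquiv p K σ : (ZMod p)ˣ) : ZMod p).val

/-- `δ = ∏_{b=1}^{p-1} (ζ^b - 1)^(b^(p-3))`, the cyclotomic number of type `ω²`. -/
noncomputable def delta : 𝓞 K :=
  ∏ b ∈ Finset.Icc 1 (p - 1), (zetaInt p K ^ b - 1) ^ (b ^ (p - 3))

/-- `x` has type `ω²`: `σ x ∈ x ^ (a_σ²) · (K^×)^p` for all `σ`. -/
def IsTypeTwo (x : K) : Prop :=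
  ∀ σ : K ≃ₐ[ℚ] K, ∃ y : K, σ x = x ^ (galExp p K σ ^ 2) * y ^ p

/-- The ring automorphism of `𝓞 K` induced by `σ`. -/
noncomputable def ringAut (σ : K ≃ₐ[ℚ] K) : 𝓞 K ≃+* 𝓞 K :=
  galRestrictionDatum ℤ ℚ K (𝓞 K) σ

/-- The action of `σ` on the class group. -/
noncomputable def clAct (σ : K ≃ₐ[ℚ] K) : ClassGroup (𝓞 K) ≃* ClassGroup (𝓞 K) :=
  ClassGroup.mulEquiv (ringAut K σ)

/-- `Θ(x) = ∏_σ σ(x) ^ (a_σ ^ (p-3))` on the class group. -/
noncomputable def theta (x : ClassGroup (𝓞 K)) : ClassGroup (𝓞 K) :=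
  ∏ σ : K ≃ₐ[ℚ] K, (clAct K σ x) ^ (galExp p K σ ^ (p - 3))

/-- A good prime: degree one, not above `p`, and `δ` is not a `p`-th power residue. -/
def IsGoodPrime (Q : Ideal (𝓞 K)) : Prop :=
  Q.IsPrime ∧ (Ideal.absNorm Q).Prime ∧ Ideal.absNorm Q ≠ p ∧
    ¬ ∃ x : 𝓞 K, x ^ p - delta p K ∈ Q

end Defs

/-! ## Block statements -/

/-- (T) Thaine's relation for good primes. -/
def ThaineStatement : Prop :=
  ∀ (p : ℕ) [Fact p.Prime], 5 ≤ p →
  ∀ (K : Type) [Field K] [NumberField K] [IsCyclotomicExtension {p} ℚ K]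
    (Q : (Ideal (𝓞 K))⁰), IsGoodPrime p K (Q : Ideal (𝓞 K)) →
    ∃ J : ClassGroup (𝓞 K), theta p K (ClassGroup.mk0 Q) = J ^ p

/-- (N) Density: good primes see every nontrivial character of `Cl / Cl^p`. -/
def DensityStatement : Prop :=
  ∀ (p : ℕ) [Fact p.Prime], 5 ≤ p →
  ∀ (K : Type) [Field K] [NumberField K] [IsCyclotomicExtension {p} ℚ K]
    (χ : ClassGroup (𝓞 K) →* Multiplicative (ZMod p)), χ ≠ 1 →
    ∃ Q : (Ideal (𝓞 K))⁰, IsGoodPrime p K (Q : Ideal (𝓞 K)) ∧ χ (ClassGroup.mk0 Q) ≠ 1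

/-- (U) A unit of type `ω²` which is congruent to a rational integer mod `λ³` is a `p`-th
power. -/
def UnitStatement : Prop :=
  ∀ (p : ℕ) [Fact p.Prime], 5 ≤ p →
  ∀ (K : Type) [Field K] [NumberField K] [IsCyclotomicExtension {p} ℚ K]
    (u : (𝓞 K)ˣ), IsTypeTwo p K ((u : 𝓞 K) : K) →
    (∃ a₀ : ℤ, ((u : 𝓞 K) - (a₀ : 𝓞 K)) ∈ Ideal.span {lam p K ^ 3}) →
    ∃ v : (𝓞 K)ˣ, u = v ^ p

/-- The hypotheses of the core arithmetic theorem. -/
structure KummerDatum (p : ℕ) [Fact p.Prime]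
    (K : Type) [Field K] [NumberField K] [IsCyclotomicExtension {p} ℚ K] (α : 𝓞 K) : Prop where
  ne_zero : α ≠ 0
  typeTwo : IsTypeTwo p K (α : K)
  ideal : ∃ I : Ideal (𝓞 K), Ideal.span {α} = I ^ p
  loc : ∃ a₀ : ℤ, ¬ (p : ℤ) ∣ a₀ ∧ (α - (a₀ : 𝓞 K)) ∈ Ideal.span {lam p K ^ 3}

/-- Core arithmetic theorem, `p ≥ 5`. -/
def CATStatement : Prop :=
  ∀ (p : ℕ) [Fact p.Prime], 5 ≤ p →
  ∀ (K : Type) [Field K] [NumberField K] [IsCyclotomicExtension {p} ℚ K] (α : 𝓞 K),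
    KummerDatum p K α → ∃ β : K, (α : K) = β ^ p

/-- Core arithmetic theorem, `p = 3`. -/
def CAT3Statement : Prop :=
  ∀ (K : Type) [Field K] [NumberField K] [IsCyclotomicExtension {3} ℚ K] (α : 𝓞 K),
    haveI : Fact (Nat.Prime 3) := ⟨Nat.prime_three⟩
    KummerDatum 3 K α → ∃ β : K, (α : K) = β ^ 3

/-- (B1) Galois reduction: a non-split admissible extension produces a Kummer datum which is
not a `p`-th power. -/
def ReductionStatement : Prop :=
  ∀ (p : ℕ) [Fact p.Prime], 3 ≤ p →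
  ∀ (V : Type) [AddCommGroup V] [Module (ZMod p) V]
    [DistribMulAction (AlgebraicClosure ℚ ≃ₐ[ℚ] AlgebraicClosure ℚ) V]
    [SMulCommClass (AlgebraicClosure ℚ ≃ₐ[ℚ] AlgebraicClosure ℚ) (ZMod p) V]
    (C : Submodule (ZMod p) V),
    ExtCitation.IsAdmissibleExtensionCts p V C → ¬ ExtCitation.SplitsGlobally C →
    ∃ (K : Type) (_ : Field K) (_ : NumberField K) (_ : IsCyclotomicExtension {p} ℚ K)
      (α : 𝓞 K), KummerDatum p K α ∧ ¬ ∃ β : K, (α : K) = β ^ p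

end Fermat.Agent.S14.Spec
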