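import Fermat.Agent.S14.Spec

set_option autoImplicit false

open NumberField

namespace Fermat.Agent.S14

open Spec

/-- S14 from the three top-level blocks. -/
theorem extVanishingCts_of (hR : ReductionStatement) (hC : CATStatement) (hC3 : CAT3Statement)
    {p : ℕ} [hp : Fact p.Prime] (h3 : 3 ≤ p) : ExtCitation.ExtVanishingCts p := by
  intro V _ _ _ _ C hadm
  by_contra hns
  obtain ⟨K, iF, iN, iC, α, hK, hnot⟩ := hR p h3 V C hadm hns
  rcases Nat.lt_or_ge p 5 with h5 | h5
  · have hp3 : p = 3 := by
      have h4 : p ≠ 4 := by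
        rintro rfl
        exact absurd hp.out (by decide)
      omega
    subst hp3
    exact hnot (hC3 K α hK)
  · exact hnot (hC p h5 K α hK)

end Fermat.Agent.S14
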